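/-
S44 / X / PL, nodes S1-S3 (owner helper147): elementary properties of completely split vertical
valuations.
-/
import Fermat.Agent.S44.X.PL.Defs
import Fermat.Agent.S36.BP.Rad
import Fermat.Agent.S36.BP.Approx

set_option autoImplicit false

noncomputable section

namespace Fermat.Agent.S44.PL

open Fermat.Agent.S18 Fermat.Agent.S36.BP Fermat.Agent.KLB

/-- `v(z) < 1` in terms of membership -/
theorem Sheets.Basic.val_lt_one_iff {F : Type*} [Field F] (W : ValuationSubring F) (z : F) :
    W.valuation z < 1 ↔ z = 0 ∨ z⁻¹ ∉ W := by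
  rcases eq_or_ne z 0 with rfl | hz
  · simp
  · rw [← ValuationSubring.valuation_le_one_iff, map_inv₀, not_le]
    have hv : W.valuation z ≠ 0 := (Valuation.ne_zero_iff _).2 hz
    constructor
    · intro h
      exact Or.inr ((one_lt_inv₀ (zero_lt_iff.2 hv)).2 h)
    · rintro (h | h)
      · exact absurd h hz
      · exact (one_lt_inv₀ (zero_lt_iff.2 hv)).1 h

section S

variable {E F : Type*} [Field E] [Field F] [Algebra E F]
  {p : ℕ} [Fact p.Prime] {σ : F ≃ₐ[E] F} {V : ValuationSubring E}
  {W : ZMod p → ValuationSubring F}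

/-- S1 -/
theorem Sheets.pow_mem (h : Sheets p σ V W) (k : ℕ) (i : ZMod p) (z : F) :
    (σ ^ k) z ∈ W i ↔ z ∈ W (i + k) := by
  induction k generalizing i z with
  | zero => simp
  | succ k ih =>
    rw [pow_succ, AlgEquiv.mul_apply, ih, h.shift, Nat.cast_succ, add_assoc]

/-- S2 -/
theorem Sheets.val_pow_lt (h : Sheets p σ V W) (k : ℕ) (i : ZMod p) (z : F) :
    (W i).valuation ((σ ^ k) z) < 1 ↔ (W (i + k)).valuation z < 1 := by
  rw [Sheets.Basic.val_lt_one_iff, Sheets.Basic.val_lt_one_iff, ← map_inv₀, h.pow_mem,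
    map_eq_zero_iff _ (σ ^ k).injective]

/-- S2' -/
theorem Sheets.val_map_le (h : Sheets p σ V W) (i : ZMod p) (z : E) :
    (W i).valuation (algebraMap E F z) ≤ 1 ↔ V.valuation z ≤ 1 := by
  rw [ValuationSubring.valuation_le_one_iff, ValuationSubring.valuation_le_one_iff, h.lies]

/-- S2'' -/
theorem Sheets.val_map_lt (h : Sheets p σ V W) (i : ZMod p) (z : E) :
    (W i).valuation (algebraMap E F z) < 1 ↔ V.valuation z < 1 := by
  rw [Sheets.Basic.val_lt_one_iff, Sheets.Basic.val_lt_one_iff, ← map_inv₀, h.lies,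
    map_eq_zero_iff _ (algebraMap E F).injective]

/-- S2''' -/
theorem Sheets.val_map_eq (h : Sheets p σ V W) (i : ZMod p) (z : E) :
    (W i).valuation (algebraMap E F z) = 1 ↔ V.valuation z = 1 := by
  have h1 := h.val_map_le i z
  have h2 := h.val_map_lt i z
  constructor
  · intro h3
    exact le_antisymm (h1.1 h3.le) (not_lt.1 fun h4 => (h2.2 h4).ne h3)
  · intro h3
    exact le_antisymm (h1.2 h3.le) (not_lt.1 fun h4 => (h2.1 h4).ne h3)

/-- S3 -/
theorem Sheets.exists_sep (h : Sheets p σ V W) (i : ZMod p) (N : ℕ) :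
    ∃ e : F, (W i).valuation (e - 1) < 1 ∧
      ∀ j, j ≠ i → (W j).valuation e ≤ (W j).valuation (p : F) ^ N := by
  classical
  obtain ⟨a, hai, haj⟩ := approx_sep W (fun _ => (p : F)) h.unif h.inj i (Finset.univ.erase i)
    (Finset.notMem_erase i _)
  refine ⟨(a / (1 + a)) ^ N, ?_, fun j hj => ?_⟩
  · have h1 : (W i).valuation (1 + a) = (W i).valuation a :=
      Valuation.map_add_eq_of_lt_right _ (by rwa [map_one])
    have hne : (1 + a) ≠ 0 := by
      intro h0
      rw [h0, map_zero] at h1
      rw [← h1] at hai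
      exact absurd hai (by simp)
    have h2 : Cg (W i) (a / (1 + a)) 1 := by
      unfold Cg
      have h3 : a / (1 + a) - 1 = - (1 + a)⁻¹ := by
        field_simp
        ring
      rw [h3, Valuation.map_neg, map_inv₀, h1]
      exact inv_lt_one_of_one_lt₀ hai
    have h4 := h2.pow (by rw [map_one]) N
    rw [one_pow] at h4
    exact h4
  · have h1 : (W j).valuation a < 1 := haj j (Finset.mem_erase.2 ⟨hj, Finset.mem_univ _⟩)
    rw [map_pow, approx_val_div_one_add_of_lt h1]
    exact pow_le_pow_left' (approx_val_le_unif (h.unif j) h1) N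

end S

end Fermat.Agent.S44.PL

end
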