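/-
S44 / X / PL, node S4 (owner of the block: helper223; proof: helper61).
`p` conjugate sheets ⇒ residue degree one.
-/
import Fermat.Agent.S44.X.PL.Defs
import Fermat.Agent.S44.X.PL.Cyc
import Fermat.Agent.S44.X.PL.Sheets.Basic
import Fermat.Agent.S18.Chart.Unif
import Fermat.Agent.S36.BP.Approx

set_option autoImplicit false

noncomputable section

namespace Fermat.Agent.S44.PL

open Fermat.Agent.S18 Fermat.Agent.S36.BP Fermat.Agent.KLB

section S

variable {E F : Type*} [Field E] [Field F] [Algebra E F]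
  {p : ℕ} [Fact p.Prime] {σ : F ≃ₐ[E] F} {V : ValuationSubring E}
  {W : ZMod p → ValuationSubring F}

variable [FiniteDimensional E F] [IsGalois E F]

/-- S4 : residue degree one -/
theorem Sheets.dense (hdeg : Module.finrank E F = p) (hσ : σ ≠ 1) (h : Sheets p σ V W)
    (i : ZMod p) {z : F} (hz : z ∈ W i) :
    ∃ z' ∈ V, (W i).valuation (z - algebraMap E F z') < 1 := by
  have hp : p.Prime := Fact.out
  -- a common exponent
  have hev : ∀ᶠ r : ℕ in Filter.atTop, ∀ j : ZMod p, (W j).valuation ((p : F) ^ r * z) < 1 :=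
    Filter.eventually_all.2 fun j =>
      approx_eventually_lt_one (h.unif j) (approx_val_unif_lt_one (h.unif j)) z
  obtain ⟨N, hN⟩ := hev.exists
  obtain ⟨e, he₁, he₂⟩ := h.exists_sep i N
  have hz₁ : ∀ j, j ≠ i → (W j).valuation (z * e) < 1 := by
    intro j hj
    refine lt_of_le_of_lt ?_ (hN j)
    rw [map_mul, map_mul, map_pow, mul_comm]
    exact mul_le_mul' (he₂ j hj) le_rfl
  have hz₂ : (W i).valuation (z - z * e) < 1 := by
    have e1 : z - z * e = -(z * (e - 1)) := by ring
    rw [e1, Valuation.map_neg, map_mul]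
    exact lt_of_le_of_lt (mul_le_of_le_one_left' ((W i).valuation_le_one_iff z |>.2 hz)) he₁
  have htr := cyc_trace hdeg hσ (z * e)
  obtain ⟨m, hm⟩ : ∃ m, p = m + 1 := ⟨p - 1, (Nat.sub_add_cancel hp.one_le).symm⟩
  have hsum : (W i).valuation (∑ k ∈ Finset.range m, (σ ^ (k + 1)) (z * e)) < 1 := by
    refine Valuation.map_sum_lt _ one_ne_zero fun k hk => ?_
    rw [h.val_pow_lt]
    apply hz₁
    intro hcon
    have h0 : ((k + 1 : ℕ) : ZMod p) = 0 := by
      have := hcon
      rwa [add_eq_left] at this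
    rw [ZMod.natCast_eq_zero_iff] at h0
    have := Nat.le_of_dvd (Nat.succ_pos k) h0
    have := Finset.mem_range.1 hk
    omega
  have hfin : (W i).valuation (z - algebraMap E F (Algebra.trace E F (z * e))) < 1 := by
    have e2 : z - algebraMap E F (Algebra.trace E F (z * e)) =
        (z - z * e) + -(∑ k ∈ Finset.range m, (σ ^ (k + 1)) (z * e)) := by
      rw [htr]
      conv_lhs => rw [hm]
      rw [Finset.sum_range_succ', pow_zero, AlgEquiv.one_apply]
      ring
    rw [e2]
    refine Valuation.map_add_lt _ hz₂ ?_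
    rwa [Valuation.map_neg]
  refine ⟨Algebra.trace E F (z * e), ?_, hfin⟩
  rw [← h.lies i]
  have h1 : z - algebraMap E F (Algebra.trace E F (z * e)) ∈ W i :=
    ((W i).valuation_le_one_iff _).1 hfin.le
  have h2 := sub_mem hz h1
  rwa [sub_sub_cancel] at h2

end S

end Fermat.Agent.S44.PL

end
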