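/-
S44 / X / PL, node S5 (owner of the block: helper223; proof: helper61, shadow of task 2160).
The integral closure of `V` in `F` is the intersection of the sheets.
-/
import Fermat.Agent.S44.X.PL.Defs
import Fermat.Agent.S44.X.PL.Cyc
import Fermat.Agent.S44.X.PL.Sheets.Basic

set_option autoImplicit false

noncomputable section

namespace Fermat.Agent.S44.PL

open Fermat.Agent.S18 Fermat.Agent.S36.BP Fermat.Agent.KLB

section S

variable {E F : Type*} [Field E] [Field F] [Algebra E F]
  {p : ℕ} [Fact p.Prime] {σ : F ≃ₐ[E] F} {V : ValuationSubring E}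
  {W : ZMod p → ValuationSubring F}

/-- a valuation ring of `F` containing the image of the subring `O` of `E` contains the integral
closure of `O` -/
private theorem integral_mem_of_isIntegral (O : Subring E) (W : ValuationSubring F)
    (hW : ∀ x ∈ O, algebraMap E F x ∈ W) {b : F} (hb : IsIntegral O b) : b ∈ W := by
  let φ : O →+* W :=
    { toFun := fun x => ⟨algebraMap E F (x : E), hW x x.2⟩
      map_one' := Subtype.ext (map_one _)
      map_mul' := fun x y => Subtype.ext (map_mul _ _ _)
      map_zero' := Subtype.ext (map_zero _)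
      map_add' := fun x y => Subtype.ext (map_add _ _ _) }
  let _ : Algebra O W := φ.toAlgebra
  have : IsScalarTower O W F := IsScalarTower.of_algebraMap_eq fun _ => rfl
  have h1 : IsIntegral W b := hb.tower_top
  obtain ⟨y, hy⟩ := (IsIntegrallyClosed.isIntegral_iff (R := W) (K := F)).1 h1
  rw [← hy]
  exact y.2

variable [FiniteDimensional E F] [IsGalois E F]

/-- S5 -/
theorem Sheets.isIntegral_iff (hdeg : Module.finrank E F = p) (hσ : σ ≠ 1) (h : Sheets p σ V W)
    (z : F) : IsIntegral V.toSubring z ↔ ∀ i, z ∈ W i := by
  constructor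
  · intro hz i
    exact integral_mem_of_isIntegral V.toSubring (W i) (fun x hx => (h.lies i x).2 hx) hz
  · intro hz
    refine cyc_isIntegral hdeg hσ V.toSubring (⨅ i, (W i).toSubring) (fun e he => ?_) fun k => ?_
    · rw [Subring.mem_iInf] at he
      exact (h.lies 0 e).1 (he 0)
    · rw [Subring.mem_iInf]
      intro i
      exact (h.pow_mem k i z).2 (hz _)

end S

end Fermat.Agent.S44.PL

end
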