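/-
S44 / X / PL, node S6 (proof: helper195): a completely split vertical valuation has trivial
codifferent.
-/
import Fermat.Agent.S44.X.PL.Defs
import Fermat.Agent.S18.Chart.Unif
import Fermat.Agent.S44.X.PL.Cyc
import Fermat.Agent.S44.X.PL.Sheets.Basic
import Fermat.Agent.S44.X.PL.Sheets.Integral

set_option autoImplicit false

noncomputable section

namespace Fermat.Agent.S44.PL

open Fermat.Agent.S18 Fermat.Agent.S36.BP Fermat.Agent.KLB

section S

variable {E F : Type*} [Field E] [Field F] [Algebra E F]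
  {p : ℕ} [Fact p.Prime] {σ : F ≃ₐ[E] F} {V : ValuationSubring E}
  {W : ZMod p → ValuationSubring F}

/-- the uniformiser has valuation `< 1`. -/
theorem Unr.val_unif_lt_one {L : Type*} [Field L] {O : ValuationSubring L} {ϖ : L}
    (h : IsUnif O ϖ) : O.valuation ϖ < 1 := by
  rw [← ValuationSubring.mem_nonunits_iff, ValuationSubring.mem_nonunits_iff_or]
  exact Or.inr h.inv_notMem

/-- a common denominator on all sheets. -/
theorem Unr.exists_pow_mul_mem (h : Sheets p σ V W) (y : F) :
    ∃ M : ℕ, ∀ j, (p : F) ^ M * y ∈ W j := by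
  choose r hr using fun j => (h.unif j).exists_pow_mul_mem y
  refine ⟨∑ j, r j, fun j => ?_⟩
  have hle : r j ≤ ∑ j, r j := Finset.single_le_sum (fun _ _ => Nat.zero_le _) (Finset.mem_univ j)
  obtain ⟨k, hk⟩ := Nat.exists_eq_add_of_le hle
  rw [hk, add_comm, pow_add, mul_assoc]
  exact mul_mem (pow_mem (h.unif j).mem k) (hr j)

variable [FiniteDimensional E F] [IsGalois E F]

/-- S6 -/
theorem Sheets.unr (hdeg : Module.finrank E F = p) (hσ : σ ≠ 1) (h : Sheets p σ V W) :
    Unr V.toSubring E F := by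
  classical
  intro y hy
  rw [h.isIntegral_iff hdeg hσ]
  by_contra hcon
  push Not at hcon
  obtain ⟨i₁, hi₁⟩ := hcon
  have hp0 : (p : F) ≠ 0 := (h.unif i₁).ne_zero
  have hy0 : y ≠ 0 := by
    rintro rfl
    exact hi₁ (zero_mem _)
  -- the minimal exponent `M` with `p ^ M * y` integral on all sheets
  have hex := Unr.exists_pow_mul_mem h y
  have hM : ∀ j, (p : F) ^ Nat.find hex * y ∈ W j := Nat.find_spec hex
  have hM0 : Nat.find hex ≠ 0 := by
    intro h0
    have := hM i₁
    rw [h0, pow_zero, one_mul] at this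
    exact hi₁ this
  obtain ⟨M', hM'⟩ := Nat.exists_eq_succ_of_ne_zero hM0
  have hmin : ¬ ∀ j, (p : F) ^ M' * y ∈ W j := Nat.find_min hex (by omega)
  push Not at hmin
  obtain ⟨i₀, hi₀⟩ := hmin
  generalize Nat.find hex = M at hM hM0 hM'
  subst hM'
  have hy'0 : (p : F) ^ (M' + 1) * y ≠ 0 := mul_ne_zero (pow_ne_zero _ hp0) hy0
  -- `y' = p ^ M * y` is a unit on the sheet `i₀`
  have hy'inv : ((p : F) ^ (M' + 1) * y)⁻¹ ∈ W i₀ := by
    by_contra hc
    have h1 := (h.unif i₀).div_mem (hM i₀) hc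
    apply hi₀
    have e : (p : F) ^ (M' + 1) * y / (p : F) = (p : F) ^ M' * y := by
      rw [pow_succ]
      field_simp
    rwa [e] at h1
  obtain ⟨N, hN⟩ := Unr.exists_pow_mul_mem h ((p : F) ^ (M' + 1) * y)⁻¹
  obtain ⟨e, he1, he2⟩ := h.exists_sep i₀ (N + 1)
  have hlt : ∀ j, (W j).valuation (p : F) < 1 := fun j => Unr.val_unif_lt_one (h.unif j)
  have he_mem : e ∈ W i₀ := by
    have h1 : e - 1 ∈ W i₀ := ((W i₀).valuation_le_one_iff _).1 he1.le
    have := add_mem h1 (one_mem (W i₀))
    rwa [sub_add_cancel] at this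
  -- the test element
  have hz : ∀ j, e * ((p : F) ^ (M' + 1) * y)⁻¹ ∈ W j := by
    intro j
    by_cases hj : j = i₀
    · subst hj
      exact mul_mem he_mem hy'inv
    · rw [← ValuationSubring.valuation_le_one_iff, map_mul]
      have h1 : (W j).valuation ((p : F) ^ N * ((p : F) ^ (M' + 1) * y)⁻¹) ≤ 1 :=
        ((W j).valuation_le_one_iff _).2 (hN j)
      rw [map_mul, map_pow] at h1
      calc (W j).valuation e * (W j).valuation ((p : F) ^ (M' + 1) * y)⁻¹
          ≤ (W j).valuation (p : F) ^ (N + 1) * (W j).valuation ((p : F) ^ (M' + 1) * y)⁻¹ :=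
            mul_le_mul_left (he2 j hj) _
        _ = (W j).valuation (p : F) *
            ((W j).valuation (p : F) ^ N * (W j).valuation ((p : F) ^ (M' + 1) * y)⁻¹) := by
            rw [pow_succ']; exact mul_assoc _ _ _
        _ ≤ 1 := mul_le_one' (hlt j).le h1
  have htr := hy _ ((h.isIntegral_iff hdeg hσ _).2 hz)
  -- the trace lies in `V`
  have htrV : Algebra.trace E F (y * (e * ((p : F) ^ (M' + 1) * y)⁻¹)) ∈ V := by
    rw [← h.lies i₀]
    exact (h.isIntegral_iff hdeg hσ _).1 htr.algebraMap i₀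
  have hte : Algebra.trace E F e =
      (p : E) ^ (M' + 1) * Algebra.trace E F (y * (e * ((p : F) ^ (M' + 1) * y)⁻¹)) := by
    rw [← smul_eq_mul, ← map_smul, Algebra.smul_def, map_pow, map_natCast]
    congr 1
    field_simp
  have hpV : V.valuation (p : E) < 1 := by
    rw [← h.val_map_lt i₀, map_natCast]
    exact hlt i₀
  have hlt1 : V.valuation (Algebra.trace E F e) < 1 := by
    rw [hte, map_mul, map_pow, pow_succ', mul_assoc]
    refine mul_lt_one_of_lt_of_le hpV (mul_le_one' (pow_le_one' hpV.le _) ?_)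
    exact (V.valuation_le_one_iff _).2 htrV
  -- but the trace of `e` is congruent to `1` on the sheet `i₀`
  rw [← h.val_map_lt i₀, cyc_trace hdeg hσ,
    ← Finset.add_sum_erase (Finset.range p) _ (Finset.mem_range.2 (Fact.out : p.Prime).pos),
    pow_zero, AlgEquiv.one_apply, ← ValuationSubring.mem_nonunits_iff] at hlt1
  have hsum : ∑ k ∈ (Finset.range p).erase 0, (σ ^ k) e ∈ (W i₀).nonunits := by
    refine sum_mem fun k hk => ?_
    rw [Finset.mem_erase, Finset.mem_range] at hk
    rw [ValuationSubring.mem_nonunits_iff, h.val_pow_lt]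
    have hne : i₀ + (k : ZMod p) ≠ i₀ := by
      intro hh
      have h0 : (k : ZMod p) = 0 := by simpa using hh
      rw [ZMod.natCast_eq_zero_iff] at h0
      exact absurd (Nat.le_of_dvd (Nat.pos_of_ne_zero hk.1) h0) (not_le.2 hk.2)
    exact lt_of_le_of_lt (he2 _ hne) (pow_lt_one₀ zero_le (hlt _) (Nat.succ_ne_zero N))
  have h1 : (1 : F) ∈ (W i₀).nonunits := by
    have h2 := sub_mem (sub_mem hlt1 hsum) ((W i₀).mem_nonunits_iff.2 he1)
    have e3 : e + ∑ k ∈ (Finset.range p).erase 0, (σ ^ k) e -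
        ∑ k ∈ (Finset.range p).erase 0, (σ ^ k) e - (e - 1) = 1 := by ring
    rwa [e3] at h2
  rw [ValuationSubring.mem_nonunits_iff, map_one] at h1
  exact lt_irrefl _ h1

end S

end Fermat.Agent.S44.PL
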