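/-
S44 / X / PL, node G: `Sheets.unr` for an arbitrary uniformiser `ϖ : E` (copy of the proofs of
`Sheets/{Basic,Integral,Unr}.lean`).
-/
import Fermat.Agent.S44.X.PL.Defs2
import Fermat.Agent.S18.Chart.Unif
import Fermat.Agent.S44.X.PL.Cyc
import Fermat.Agent.S44.X.PL.Sheets.Basic
import Fermat.Agent.S44.X.PL.Sheets.Unr

set_option autoImplicit false

noncomputable section

namespace Fermat.Agent.S44.PL

open Fermat.Agent.S18 Fermat.Agent.S36.BP Fermat.Agent.KLB

section S

variable {E F : Type*} [Field E] [Field F] [Algebra E F]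
  {p : ℕ} [Fact p.Prime] {σ : F ≃ₐ[E] F} {V : ValuationSubring E} {ϖ : E}
  {W : ZMod p → ValuationSubring F}

theorem SheetsG.pow_mem (h : SheetsG p σ V ϖ W) (k : ℕ) (i : ZMod p) (z : F) :
    (σ ^ k) z ∈ W i ↔ z ∈ W (i + k) := by
  induction k generalizing i z with
  | zero => simp
  | succ k ih =>
    rw [pow_succ, AlgEquiv.mul_apply, ih, h.shift, Nat.cast_succ, add_assoc]

theorem SheetsG.val_pow_lt (h : SheetsG p σ V ϖ W) (k : ℕ) (i : ZMod p) (z : F) :
    (W i).valuation ((σ ^ k) z) < 1 ↔ (W (i + k)).valuation z < 1 := by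
  rw [Sheets.Basic.val_lt_one_iff, Sheets.Basic.val_lt_one_iff, ← map_inv₀, h.pow_mem,
    map_eq_zero_iff _ (σ ^ k).injective]

theorem SheetsG.val_map_lt (h : SheetsG p σ V ϖ W) (i : ZMod p) (z : E) :
    (W i).valuation (algebraMap E F z) < 1 ↔ V.valuation z < 1 := by
  rw [Sheets.Basic.val_lt_one_iff, Sheets.Basic.val_lt_one_iff, ← map_inv₀, h.lies,
    map_eq_zero_iff _ (algebraMap E F).injective]

theorem SheetsG.exists_sep (h : SheetsG p σ V ϖ W) (i : ZMod p) (N : ℕ) :
    ∃ e : F, (W i).valuation (e - 1) < 1 ∧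
      ∀ j, j ≠ i → (W j).valuation e ≤ (W j).valuation (algebraMap E F ϖ) ^ N := by
  classical
  obtain ⟨a, hai, haj⟩ := approx_sep W (fun _ => algebraMap E F ϖ) h.unif h.inj i
    (Finset.univ.erase i) (Finset.notMem_erase i _)
  refine ⟨(a / (1 + a)) ^ N, ?_, fun j hj => ?_⟩
  · have h1 : (W i).valuation (1 + a) = (W i).valuation a :=
      Valuation.map_add_eq_of_lt_right _ (by rwa [map_one])
    have hne : (1 + a) ≠ 0 := by
      intro h0
      rw [h0, map_zero] at h1
      rw [← h1] at hai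
      exact absurd hai (by simp)
    have h2 : Cg (W i) (a / (1 + a)) 1 := by
      unfold Cg
      have h3 : a / (1 + a) - 1 = - (1 + a)⁻¹ := by
        field_simp
        ring
      rw [h3, Valuation.map_neg, map_inv₀, h1]
      exact inv_lt_one_of_one_lt₀ hai
    have h4 := h2.pow (by rw [map_one]) N
    rw [one_pow] at h4
    exact h4
  · have h1 : (W j).valuation a < 1 := haj j (Finset.mem_erase.2 ⟨hj, Finset.mem_univ _⟩)
    rw [map_pow, approx_val_div_one_add_of_lt h1]
    exact pow_le_pow_left' (approx_val_le_unif (h.unif j) h1) N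

/-- a valuation ring of `F` containing the image of the subring `O` of `E` contains the integral
closure of `O` -/
theorem SheetsG.mem_of_isIntegral_aux (O : Subring E) (W : ValuationSubring F)
    (hW : ∀ x ∈ O, algebraMap E F x ∈ W) {b : F} (hb : IsIntegral O b) : b ∈ W := by
  let φ : O →+* W :=
    { toFun := fun x => ⟨algebraMap E F (x : E), hW x x.2⟩
      map_one' := Subtype.ext (map_one _)
      map_mul' := fun x y => Subtype.ext (map_mul _ _ _)
      map_zero' := Subtype.ext (map_zero _)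
      map_add' := fun x y => Subtype.ext (map_add _ _ _) }
  let _ : Algebra O W := φ.toAlgebra
  have : IsScalarTower O W F := IsScalarTower.of_algebraMap_eq fun _ => rfl
  have h1 : IsIntegral W b := hb.tower_top
  obtain ⟨y, hy⟩ := (IsIntegrallyClosed.isIntegral_iff (R := W) (K := F)).1 h1
  rw [← hy]
  exact y.2

/-- a common denominator on all sheets. -/
theorem SheetsG.exists_pow_mul_mem (h : SheetsG p σ V ϖ W) (y : F) :
    ∃ M : ℕ, ∀ j, (algebraMap E F ϖ) ^ M * y ∈ W j := by
  choose r hr using fun j => (h.unif j).exists_pow_mul_mem y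
  refine ⟨∑ j, r j, fun j => ?_⟩
  have hle : r j ≤ ∑ j, r j := Finset.single_le_sum (fun _ _ => Nat.zero_le _) (Finset.mem_univ j)
  obtain ⟨k, hk⟩ := Nat.exists_eq_add_of_le hle
  rw [hk, add_comm, pow_add, mul_assoc]
  exact mul_mem (_root_.pow_mem (h.unif j).mem k) (hr j)

variable [FiniteDimensional E F] [IsGalois E F]

theorem SheetsG.isIntegral_iff (hdeg : Module.finrank E F = p) (hσ : σ ≠ 1)
    (h : SheetsG p σ V ϖ W) (z : F) : IsIntegral V.toSubring z ↔ ∀ i, z ∈ W i := by
  constructor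
  · intro hz i
    exact SheetsG.mem_of_isIntegral_aux V.toSubring (W i) (fun x hx => (h.lies i x).2 hx) hz
  · intro hz
    refine cyc_isIntegral hdeg hσ V.toSubring (⨅ i, (W i).toSubring) (fun e he => ?_) fun k => ?_
    · rw [Subring.mem_iInf] at he
      exact (h.lies 0 e).1 (he 0)
    · rw [Subring.mem_iInf]
      intro i
      exact (h.pow_mem k i z).2 (hz _)

end S

section T

variable {E F : Type*} [Field E] [Field F] [Algebra E F] {p : ℕ} [Fact p.Prime]
  {σ : F ≃ₐ[E] F} {V : ValuationSubring E} {W : ValuationSubring F}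

variable [FiniteDimensional E F] [IsGalois E F]

/-- G : `Sheets.unr` for an arbitrary uniformiser -/
theorem SheetsG.unr (hdeg : Module.finrank E F = p) (hσ : σ ≠ 1) {ϖ : E}
    {W : ZMod p → ValuationSubring F} (h : SheetsG p σ V ϖ W) : Unr V.toSubring E F := by
  classical
  intro y hy
  rw [h.isIntegral_iff hdeg hσ]
  by_contra hcon
  push Not at hcon
  obtain ⟨i₁, hi₁⟩ := hcon
  set P : F := algebraMap E F ϖ with hP
  have hp0 : P ≠ 0 := (h.unif i₁).ne_zero
  have hy0 : y ≠ 0 := by
    rintro rfl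
    exact hi₁ (zero_mem _)
  -- the minimal exponent `M` with `ϖ ^ M * y` integral on all sheets
  have hex := SheetsG.exists_pow_mul_mem h y
  have hM : ∀ j, P ^ Nat.find hex * y ∈ W j := Nat.find_spec hex
  have hM0 : Nat.find hex ≠ 0 := by
    intro h0
    have := hM i₁
    rw [h0, pow_zero, one_mul] at this
    exact hi₁ this
  obtain ⟨M', hM'⟩ := Nat.exists_eq_succ_of_ne_zero hM0
  have hmin : ¬ ∀ j, P ^ M' * y ∈ W j := Nat.find_min hex (by omega)
  push Not at hmin
  obtain ⟨i₀, hi₀⟩ := hmin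
  generalize Nat.find hex = M at hM hM0 hM'
  subst hM'
  have hy'0 : P ^ (M' + 1) * y ≠ 0 := mul_ne_zero (pow_ne_zero _ hp0) hy0
  -- `y' = ϖ ^ M * y` is a unit on the sheet `i₀`
  have hy'inv : (P ^ (M' + 1) * y)⁻¹ ∈ W i₀ := by
    by_contra hc
    have h1 := (h.unif i₀).div_mem (hM i₀) hc
    apply hi₀
    have e : P ^ (M' + 1) * y / P = P ^ M' * y := by
      rw [pow_succ]
      field_simp
    rwa [e] at h1
  obtain ⟨N, hN⟩ := SheetsG.exists_pow_mul_mem h (P ^ (M' + 1) * y)⁻¹
  obtain ⟨e, he1, he2⟩ := h.exists_sep i₀ (N + 1)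
  have hlt : ∀ j, (W j).valuation P < 1 := fun j => Unr.val_unif_lt_one (h.unif j)
  have he_mem : e ∈ W i₀ := by
    have h1 : e - 1 ∈ W i₀ := ((W i₀).valuation_le_one_iff _).1 he1.le
    have := add_mem h1 (one_mem (W i₀))
    rwa [sub_add_cancel] at this
  -- the test element
  have hz : ∀ j, e * (P ^ (M' + 1) * y)⁻¹ ∈ W j := by
    intro j
    by_cases hj : j = i₀
    · subst hj
      exact mul_mem he_mem hy'inv
    · rw [← ValuationSubring.valuation_le_one_iff, map_mul]
      have h1 : (W j).valuation (P ^ N * (P ^ (M' + 1) * y)⁻¹) ≤ 1 :=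
        ((W j).valuation_le_one_iff _).2 (hN j)
      rw [map_mul, map_pow] at h1
      calc (W j).valuation e * (W j).valuation (P ^ (M' + 1) * y)⁻¹
          ≤ (W j).valuation P ^ (N + 1) * (W j).valuation (P ^ (M' + 1) * y)⁻¹ :=
            mul_le_mul_left (he2 j hj) _
        _ = (W j).valuation P *
            ((W j).valuation P ^ N * (W j).valuation (P ^ (M' + 1) * y)⁻¹) := by
            rw [pow_succ']; exact mul_assoc _ _ _
        _ ≤ 1 := mul_le_one' (hlt j).le h1
  have htr := hy _ ((h.isIntegral_iff hdeg hσ _).2 hz)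
  -- the trace lies in `V`
  have htrV : Algebra.trace E F (y * (e * (P ^ (M' + 1) * y)⁻¹)) ∈ V := by
    rw [← h.lies i₀]
    exact (h.isIntegral_iff hdeg hσ _).1 htr.algebraMap i₀
  have hte : Algebra.trace E F e =
      ϖ ^ (M' + 1) * Algebra.trace E F (y * (e * (P ^ (M' + 1) * y)⁻¹)) := by
    rw [← smul_eq_mul, ← map_smul, Algebra.smul_def, map_pow, ← hP]
    congr 1
    field_simp
  have hpV : V.valuation ϖ < 1 := by
    rw [← h.val_map_lt i₀]
    exact hlt i₀
  have hlt1 : V.valuation (Algebra.trace E F e) < 1 := by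
    rw [hte, map_mul, map_pow, pow_succ', mul_assoc]
    refine mul_lt_one_of_lt_of_le hpV (mul_le_one' (pow_le_one' hpV.le _) ?_)
    exact (V.valuation_le_one_iff _).2 htrV
  -- but the trace of `e` is congruent to `1` on the sheet `i₀`
  rw [← h.val_map_lt i₀, cyc_trace hdeg hσ,
    ← Finset.add_sum_erase (Finset.range p) _ (Finset.mem_range.2 (Fact.out : p.Prime).pos),
    pow_zero, AlgEquiv.one_apply, ← ValuationSubring.mem_nonunits_iff] at hlt1
  have hsum : ∑ k ∈ (Finset.range p).erase 0, (σ ^ k) e ∈ (W i₀).nonunits := by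
    refine sum_mem fun k hk => ?_
    rw [Finset.mem_erase, Finset.mem_range] at hk
    rw [ValuationSubring.mem_nonunits_iff, h.val_pow_lt]
    have hne : i₀ + (k : ZMod p) ≠ i₀ := by
      intro hh
      have h0 : (k : ZMod p) = 0 := by simpa using hh
      rw [ZMod.natCast_eq_zero_iff] at h0
      exact absurd (Nat.le_of_dvd (Nat.pos_of_ne_zero hk.1) h0) (not_le.2 hk.2)
    exact lt_of_le_of_lt (he2 _ hne) (pow_lt_one₀ zero_le (hlt _) (Nat.succ_ne_zero N))
  have h1 : (1 : F) ∈ (W i₀).nonunits := by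
    have h2 := sub_mem (sub_mem hlt1 hsum) ((W i₀).mem_nonunits_iff.2 he1)
    have e3 : e + ∑ k ∈ (Finset.range p).erase 0, (σ ^ k) e -
        ∑ k ∈ (Finset.range p).erase 0, (σ ^ k) e - (e - 1) = 1 := by ring
    rwa [e3] at h2
  rw [ValuationSubring.mem_nonunits_iff, map_one] at h1
  exact lt_irrefl _ h1

end T

end Fermat.Agent.S44.PL

end
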